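import Mathlib

/-!
# FROB-FIN: a Galois automorphism fixing an unramified prime is a power of its Frobenius

`L/ℚ` a finite Galois number field, `P` a prime of `𝓞 L` over `ℓ`, unramified over `ℤ`.
If `g • P = P` then `g = τ ^ k` for an arithmetic Frobenius `τ` at `P`
(`τ x ≡ x ^ ℓ mod P` for all `x ∈ 𝓞 L`).

Also: all but finitely many rational primes are unramified in `L` (`FROB-RAM`).
-/

set_option autoImplicit false

open scoped NumberField Pointwise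

namespace Fermat.Agent.H5.Frob

/-- If every element of a finite field `F` satisfies `y ^ m = y` with `1 < m`, then
`card F ≤ m`. -/
theorem card_le_of_forall_pow_eq {F : Type*} [Field F] [Fintype F] (m : ℕ) (hm : 1 < m)
    (h : ∀ y : F, y ^ m = y) : Fintype.card F ≤ m := by
  classical
  have hne : (Polynomial.X ^ m - Polynomial.X : Polynomial F) ≠ 0 :=
    FiniteField.X_pow_card_sub_X_ne_zero F hm
  have hdeg : (Polynomial.X ^ m - Polynomial.X : Polynomial F).natDegree = m :=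
    FiniteField.X_pow_card_sub_X_natDegree_eq F hm
  have hsub : (Finset.univ : Finset F).val ⊆ (Polynomial.X ^ m - Polynomial.X : Polynomial F).roots := by
    intro y _
    rw [Polynomial.mem_roots hne, Polynomial.IsRoot.def]
    simp [h y]
  have := Polynomial.card_le_degree_of_subset_roots hsub
  rw [hdeg] at this
  simpa using this

section
variable (L : Type) [Field L] [NumberField L] [IsGalois ℚ L]

omit [IsGalois ℚ L] in
/-- Iterating an arithmetic Frobenius: `τ ^ k • x ≡ x ^ (ℓ ^ k)` modulo `P`. -/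
theorem smul_pow_sub_mem (τ : L ≃ₐ[ℚ] L) (ℓ : ℕ) (P : Ideal (𝓞 L))
    (hτ : ∀ x : 𝓞 L, τ • x - x ^ ℓ ∈ P) (k : ℕ) (x : 𝓞 L) :
    (τ ^ k) • x - x ^ (ℓ ^ k) ∈ P := by
  induction k generalizing x with
  | zero => simp
  | succ k ih =>
    have h1 : (τ ^ (k + 1)) • x - x ^ (ℓ ^ (k + 1)) =
        ((τ ^ k) • (τ • x) - (τ • x) ^ (ℓ ^ k)) + ((τ • x) ^ (ℓ ^ k) - (x ^ ℓ) ^ (ℓ ^ k)) := by
      rw [pow_succ, mul_smul, ← pow_mul]
      ring
    rw [h1]
    refine P.add_mem (ih (τ • x)) ?_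
    obtain ⟨c, hc⟩ := sub_dvd_pow_sub_pow (τ • x) (x ^ ℓ) (ℓ ^ k)
    rw [hc]
    exact P.mul_mem_right _ (hτ x)

/-- **FROB-FIN.** If `g` fixes the unramified prime `P` over `ℓ`, then `g` is a power of an
arithmetic Frobenius at `P`. -/
theorem exists_frob_pow_eq_of_smul_eq (g : L ≃ₐ[ℚ] L) (ℓ : ℕ) (hℓ : ℓ.Prime)
    (P : Ideal (𝓞 L)) [hP : P.IsPrime] (hℓP : ((ℓ : ℕ) : 𝓞 L) ∈ P)
    (hram : P.ramificationIdx ℤ = 1) (hg : g • P = P) :
    ∃ (τ : L ≃ₐ[ℚ] L) (k : ℕ), (∀ x : 𝓞 L, τ • x - x ^ ℓ ∈ P) ∧ τ ^ k = g := by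
  classical
  have hℓ' : Prime (ℓ : ℤ) := Nat.prime_iff_prime_int.mp hℓ
  have hP0 : P ≠ ⊥ := by
    rintro rfl
    have : ((ℓ : ℕ) : 𝓞 L) = 0 := by simpa using hℓP
    exact hℓ.ne_zero (by exact_mod_cast this)
  have hlo : P.LiesOver (Ideal.span {(ℓ : ℤ)}) :=
    (Ideal.liesOver_span_iff hP.ne_top hℓ').mpr (by simpa using hℓP)
  have hfin : Finite (𝓞 L ⧸ P) := Ideal.finiteQuotientOfFreeOfNeBot P hP0
  have : Fact ℓ.Prime := ⟨hℓ⟩
  have hmaxℓ : (Ideal.span {(ℓ : ℤ)}).IsMaximal := Int.ideal_span_isMaximal_of_prime ℓ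
  have hpℓ : (Ideal.span {(ℓ : ℤ)}).IsPrime := hmaxℓ.isPrime
  -- the Frobenius
  obtain ⟨τ, hτ⟩ := IsArithFrobAt.exists_of_isInvariant ℤ (L ≃ₐ[ℚ] L) P
  have hcard : Nat.card (ℤ ⧸ Ideal.under ℤ P) = ℓ := by
    rw [← hlo.over]
    rw [← Submodule.cardQuot_apply, ← Ideal.absNorm_apply, Ideal.absNorm_span_singleton]
    simp
  have hτ' : ∀ x : 𝓞 L, τ • x - x ^ ℓ ∈ P := by
    intro x
    have := hτ x
    rw [hcard] at this
    exact this
  have hτstab : τ ∈ MulAction.stabilizer (L ≃ₐ[ℚ] L) P := hτ.mem_stabilizer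
  have hgstab : g ∈ MulAction.stabilizer (L ≃ₐ[ℚ] L) P := MulAction.mem_stabilizer_iff.mpr hg
  -- card of the stabilizer
  have hstab := Ideal.card_stabilizer_eq (G := L ≃ₐ[ℚ] L) (Ideal.span {(ℓ : ℤ)}) P
  rw [Ideal.ramificationIdxIn_eq_ramificationIdx (Ideal.span {(ℓ : ℤ)}) P (L ≃ₐ[ℚ] L), hram,
    one_mul, Ideal.inertiaDegIn_eq_inertiaDeg (Ideal.span {(ℓ : ℤ)}) P (L ≃ₐ[ℚ] L)] at hstab
  -- card of the residue field
  have hres : ℓ ^ P.inertiaDeg ℤ = Nat.card (𝓞 L ⧸ P) := by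
    have := Ideal.natAbs_pow_inertiaDeg (ℓ : ℤ) P
    rw [Int.natAbs_natCast] at this
    rw [this, Ideal.absNorm_apply, Submodule.cardQuot_apply]
  -- `orderOf τ ≥ f`
  have hordpos : 0 < orderOf τ := orderOf_pos τ
  have hfle : P.inertiaDeg ℤ ≤ orderOf τ := by
    have hfield : IsField (𝓞 L ⧸ P) :=
      (Ideal.Quotient.maximal_ideal_iff_isField_quotient P).mp (hP.isMaximal hP0)
    let _ : Field (𝓞 L ⧸ P) := hfield.toField
    let _ : Fintype (𝓞 L ⧸ P) := Fintype.ofFinite _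
    have hall : ∀ y : 𝓞 L ⧸ P, y ^ (ℓ ^ orderOf τ) = y := by
      intro y
      obtain ⟨x, rfl⟩ := Ideal.Quotient.mk_surjective y
      have h1 := smul_pow_sub_mem L τ ℓ P hτ' (orderOf τ) x
      rw [pow_orderOf_eq_one, one_smul] at h1
      rw [← map_pow]
      exact (Ideal.Quotient.eq.mpr h1).symm
    have h1lt : 1 < ℓ ^ orderOf τ := Nat.one_lt_pow hordpos.ne' hℓ.one_lt
    have hle := card_le_of_forall_pow_eq (ℓ ^ orderOf τ) h1lt hall
    rw [← Nat.card_eq_fintype_card, ← hres] at hle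
    exact (Nat.pow_le_pow_iff_right hℓ.one_lt).mp hle
  -- `zpowers τ = stabilizer`
  have hle : Subgroup.zpowers τ ≤ MulAction.stabilizer (L ≃ₐ[ℚ] L) P :=
    (Subgroup.zpowers_le).mpr hτstab
  have heq : Subgroup.zpowers τ = MulAction.stabilizer (L ≃ₐ[ℚ] L) P := by
    apply Subgroup.eq_of_le_of_card_ge hle
    rw [hstab, Nat.card_zpowers]
    exact hfle
  have hgz : g ∈ Subgroup.zpowers τ := heq ▸ hgstab
  rw [← mem_powers_iff_mem_zpowers] at hgz
  obtain ⟨k, hk⟩ := hgz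
  exact ⟨τ, k, hτ', hk⟩

omit [IsGalois ℚ L] in
/-- **FROB-RAM.** All but finitely many rational primes are unramified in `L`. -/
theorem exists_finset_forall_ramificationIdx_eq_one :
    ∃ T : Finset ℕ, ∀ ℓ : ℕ, ℓ.Prime → ℓ ∉ T → ∀ P : Ideal (𝓞 L), P.IsPrime →
      ((ℓ : ℕ) : 𝓞 L) ∈ P → P.ramificationIdx ℤ = 1 := by
  have hd : NumberField.discr L ≠ 0 := NumberField.discr_ne_zero L
  refine ⟨(NumberField.discr L).natAbs.primeFactors, fun ℓ hℓ hT P hP hℓP => ?_⟩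
  have hℓ' : Prime (ℓ : ℤ) := Nat.prime_iff_prime_int.mp hℓ
  have hnd : ¬ (ℓ : ℤ) ∣ NumberField.discr L := by
    intro hdvd
    apply hT
    rw [Nat.mem_primeFactors]
    refine ⟨hℓ, ?_, by simpa using hd⟩
    exact Int.natCast_dvd.mp hdvd
  have hunr := (NumberField.not_dvd_discr_iff_forall_mem L (𝓞 L) hℓ').mp hnd P hP
    (by simpa using hℓP)
  exact Ideal.ramificationIdx_eq_one P ℤ

end

end Fermat.Agent.H5.Frob
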